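import Fermat.Agent.Corollaries.AlmostAll.Mean
import Fermat.Agent.Corollaries.Surj.Cheb
import Fermat.Agent.Corollaries.Surj.Large
import Fermat.Agent.Corollaries.Surj.Adelic

/-!
# The joint distribution of `a_ℓ` modulo several primes

`W` an elliptic curve over `ℚ`, `q i ≥ 5` finitely many different primes for which the mod `q i`
representation is surjective.

* `exists_joint_gal` : one element of the Galois group acts as given elements on all `W[q i]`;
* `surjective_pi` : the joint representation to `∏ GL₂(𝔽_{q i})` is surjective;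
* `dens_joint` : the conditions on `(a_ℓ, ℓ)` modulo the different `q i` are independent.
-/

set_option autoImplicit false

noncomputable section

open Filter Topology Matrix WeierstrassCurve WeierstrassCurve.Affine.Point Module

open scoped WeierstrassCurve.Affine

namespace Fermat.Agent.Cor.AlmostAll

open Fermat.Agent.Frob Fermat.Agent.FrobDensity Fermat.Agent.Classic Fermat.Agent.Tate

local notation "GQ" => (AlgebraicClosure ℚ ≃ₐ[ℚ] AlgebraicClosure ℚ)

variable {W : WeierstrassCurve ℤ} (hΔ : W.Δ ≠ 0)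

/-- The action of `σ` on the Tate module as an automorphism. -/
def galEquiv (W : WeierstrassCurve ℤ) (p : ℕ) [Fact p.Prime] (σ : GQ) :
    TMod p ((W.map (Int.castRingHom ℚ))⁄(AlgebraicClosure ℚ)).Point ≃ₗ[ℤ_[p]]
      TMod p ((W.map (Int.castRingHom ℚ))⁄(AlgebraicClosure ℚ)).Point :=
  LinearEquiv.ofLinearMap (TMod.rep p GQ _ σ) (TMod.rep p GQ _ σ⁻¹)
    (by rw [← Module.End.mul_eq_comp, ← map_mul, mul_inv_cancel, map_one]; rfl)
    (by rw [← Module.End.mul_eq_comp, ← map_mul, inv_mul_cancel, map_one]; rfl)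

/-- Elements which act in the same way on the Tate module act in the same way on `W[p]`. -/
lemma repP_eq_of_tate {p : ℕ} [hp : Fact p.Prime] {σ τ : GQ}
    (h : (tateRep (W.map (Int.castRingHom ℚ)) (map_Δ_ne_zero hΔ) p).ρ σ =
      (galEquiv W p τ).toLinearMap) : repP p hΔ σ = repP p hΔ τ := by
  obtain ⟨e, he⟩ := exists_equiv p hΔ
  refine Units.ext (GalW.mulVec_ext fun v => ?_)
  have h1 := he σ (e.symm v)
  have h2 := he τ (e.symm v)
  rw [e.apply_symm_apply] at h1 h2
  rw [← h1, ← h2]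
  congr 1
  apply Subtype.ext
  -- the point `x` of order `p` comes from the Tate module
  obtain ⟨f, hf⟩ := (hasTwoRank_curve (map_Δ_ne_zero hΔ) p).exists_apply_eq (n := 1)
    (x := ((e.symm v : Submodule.torsionBy ℤ
      ((W.map (Int.castRingHom ℚ))⁄(AlgebraicClosure ℚ)).Point (p : ℕ)) :
      ((W.map (Int.castRingHom ℚ))⁄(AlgebraicClosure ℚ)).Point)) (by
      have h3 := mem_torsionBy_nat.mp (e.symm v).2
      rwa [pow_one])
  have h4 := congrArg (fun g : TMod p ((W.map (Int.castRingHom ℚ))⁄(AlgebraicClosure ℚ)).Point =>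
    g 1) (LinearMap.congr_fun h f)
  have h5 : σ • f 1 = τ • f 1 := h4
  rw [hf] at h5
  exact h5

/-- **One element of the Galois group acts as given elements on all `W[p]`**, `p ≥ 5` with
surjective mod `p` representation. -/
theorem exists_joint_gal (τ : ℕ → GQ) : ∃ σ : GQ, ∀ (p : ℕ) [Fact p.Prime], 5 ≤ p →
    Function.Surjective (repP p hΔ) → repP p hΔ σ = repP p hΔ (τ p) := by
  obtain ⟨σ, hσ⟩ := exists_adelic hΔ fun p _ => galEquiv W p (τ p)
  refine ⟨σ, fun p _ hp5 hs => ?_⟩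
  exact repP_eq_of_tate hΔ (hσ p hp5 fun g => exists_smul_eq_of_repP_surjective hΔ hs g)

section Pi

variable {ι : Type} (q : ι → ℕ) [∀ i, Fact (q i).Prime]

/-- The joint representation. -/
def repPi : GQ →* ∀ i, GL (Fin 2) (ZMod (q i)) := MonoidHom.pi fun i => repP (q i) hΔ

lemma repPi_apply (σ : GQ) (i : ι) : repPi hΔ q σ i = repP (q i) hΔ σ := rfl

variable {q}

/-- **The joint representation is surjective.** -/
theorem surjective_pi (hq : Function.Injective q) (h5 : ∀ i, 5 ≤ q i)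
    (hs : ∀ i, Function.Surjective (repP (q i) hΔ)) : Function.Surjective (repPi hΔ q) := by
  classical
  intro g
  choose τ hτ using fun i => hs i (g i)
  obtain ⟨σ, hσ⟩ := exists_joint_gal hΔ fun n => if h : ∃ i, q i = n then τ h.choose else 1
  refine ⟨σ, funext fun i => ?_⟩
  rw [repPi_apply, hσ (q i) (h5 i) (hs i)]
  have h : ∃ j, q j = q i := ⟨i, rfl⟩
  have h1 : h.choose = i := hq h.choose_spec
  rw [dif_pos h, h1, hτ]

lemma repPi_factors [Finite ι] : ∃ L : IntermediateField ℚ (AlgebraicClosure ℚ),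
    FiniteDimensional ℚ L ∧ ∀ σ : GQ, (∀ x ∈ L, σ x = x) → repPi hΔ q σ = 1 := by
  choose L hL h using fun i => repP_factors (q i) hΔ
  refine ⟨⨆ i, L i, IntermediateField.finiteDimensional_iSup_of_finite, fun σ hσ => ?_⟩
  refine funext fun i => ?_
  rw [repPi_apply, h i σ fun x hx => hσ x (le_iSup L i hx)]
  rfl

/-- the joint condition -/
def piSet (P : ∀ i, ZMod (q i) → ZMod (q i) → Prop) : Set (∀ i, GL (Fin 2) (ZMod (q i))) :=
  Set.univ.pi fun i => trDetSet (P i)

lemma piSet_conj (P : ∀ i, ZMod (q i) → ZMod (q i) → Prop) (g c : ∀ i, GL (Fin 2) (ZMod (q i)))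
    (hc : c ∈ piSet P) : g * c * g⁻¹ ∈ piSet P :=
  fun i _ => trDetSet_conj (P i) (g i) (c i) (hc i (Set.mem_univ i))

lemma card_piSet [Fintype ι] (P : ∀ i, ZMod (q i) → ZMod (q i) → Prop) :
    Nat.card (piSet P) = ∏ i, Nat.card (trDetSet (P i)) := by
  unfold piSet
  rw [Nat.card_congr (Equiv.Set.univPi fun i => trDetSet (P i)), Nat.card_pi]

variable [Fintype ι]

/-- **Independence**: the conditions on `(a_ℓ, ℓ)` modulo different primes `q i` are
independent, and the density of each is given by the proportion in `GL₂(𝔽_{q i})`. -/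
theorem dens_joint {M : MeanSys} (hM : M.Cheb) (hq : Function.Injective q) (h5 : ∀ i, 5 ≤ q i)
    (hs : ∀ i, Function.Surjective (repP (q i) hΔ))
    (P : ∀ i, ZMod (q i) → ZMod (q i) → Prop) :
    M.Dens {ℓ | W.IsGoodPrimeFor ℓ ∧ ∀ i, P i (W.apOfModel ℓ : ZMod (q i)) (ℓ : ZMod (q i))}
      (∏ i, ((Nat.card (trDetSet (P i)) : ℝ) / Nat.card (GL (Fin 2) (ZMod (q i))))) := by
  have h := hM (repPi hΔ q) (surjective_pi hΔ hq h5 hs) (repPi_factors hΔ) (piSet P)
    (piSet_conj P)
  have hc : ((Nat.card (piSet P) : ℝ) / Nat.card (∀ i, GL (Fin 2) (ZMod (q i)))) =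
      ∏ i, ((Nat.card (trDetSet (P i)) : ℝ) / Nat.card (GL (Fin 2) (ZMod (q i)))) := by
    rw [card_piSet, Nat.card_pi, Finset.prod_div_distrib]
    push_cast
    rfl
  rw [hc] at h
  refine MeanSys.Has.congr_of_finset (bdd_chr _) (bdd_chr _) h
    (Finset.univ.image q ∪ W.Δ.natAbs.primeFactors) fun ℓ hℓ hℓT => ?_
  rw [Finset.mem_union, not_or] at hℓT
  obtain ⟨hne, hℓΔ⟩ := hℓT
  have hgood : W.IsGoodPrimeFor ℓ := fun h => hℓΔ (Nat.mem_primeFactors.mpr
    ⟨hℓ, Int.natCast_dvd.mp h, Int.natAbs_ne_zero.mpr hΔ⟩)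
  have hne' : ∀ i, ℓ ≠ q i := fun i hi => hne (Finset.mem_image.mpr ⟨i, Finset.mem_univ i, hi.symm⟩)
  have key : ℓ ∈ FrobIn (repPi hΔ q) (piSet P) ↔ ℓ ∈ {ℓ | W.IsGoodPrimeFor ℓ ∧
      ∀ i, P i (W.apOfModel ℓ : ZMod (q i)) (ℓ : ZMod (q i))} := by
    obtain ⟨A, hA, σ, hσ⟩ := exists_frobenius ℓ hℓ
    rw [LT.Period.mem_FrobIn_iff (repPi hΔ q) (piSet_conj P) hℓ hA
      (fun τ hτ => funext fun i => repP_inertia hΔ hℓ hgood (hne' i) hA hτ) hσ]
    constructor
    · intro h
      refine ⟨hgood, fun i => ?_⟩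
      have h1 : P i _ _ := h i (Set.mem_univ i)
      rw [← trace_repP_frobenius hΔ hℓ hgood (hne' i) hA hσ,
        ← det_repP_frobenius hΔ hℓ hgood (hne' i) hA hσ]
      exact h1
    · rintro ⟨-, h⟩ i -
      have h1 := h i
      rw [← trace_repP_frobenius hΔ hℓ hgood (hne' i) hA hσ,
        ← det_repP_frobenius hΔ hℓ hgood (hne' i) hA hσ] at h1
      exact h1
  exact chr_congr key

end Pi

end Fermat.Agent.Cor.AlmostAll
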