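import Fermat.Agent.Corollaries.AlmostAll.Joint

/-!
# Almost all primes: density theorems for elliptic curves

`W` an elliptic curve over `ℚ` whose mod `p` representations are surjective for `p > B` (for
instance a semistable curve, `Surj/Large`), `M` a notion of density for sets of primes for which
Chebotarev's theorem holds (Dirichlet density, natural density; see `AlmostAll/Semistable` for
the final statements).

* `dens_apOfModel_eq` : for every integer `t` the primes `ℓ` with `a_ℓ = t` have density zero;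
* `dens_supersingular` : the supersingular primes have density zero;
* `dens_card_primeFactors` : for every `k` the primes `ℓ` such that `#W(𝔽_ℓ)` has at most `k`
  different prime factors have density zero;
* `dens_ap_primeFactors` : the same for the integers `a_ℓ`;
* `dens_zero_of_conditions` : the general statement.
-/

set_option autoImplicit false

noncomputable section

open Filter Topology Matrix WeierstrassCurve

namespace Fermat.Agent.Cor.AlmostAll

open Fermat.Agent.Frob Fermat.Agent.FrobDensity Fermat.Agent.Classic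

variable {W : WeierstrassCurve ℤ} {M : MeanSys}

/-- The prime numbers `p > B`. -/
abbrev Big (B : ℕ) := {p : ℕ // p.Prime ∧ B < p}

instance factBig (B : ℕ) (i : Big B) : Fact (i : ℕ).Prime := ⟨i.2.1⟩

lemma not_summable_big (B : ℕ) : ¬ Summable (fun i : Big B => (1 : ℝ) / ((i : ℕ) : ℝ)) := by
  intro h
  apply not_summable_one_div_on_primes
  have h1 : Summable (Set.indicator {p : ℕ | p.Prime ∧ B < p} (fun n : ℕ => (1 : ℝ) / n)) :=
    summable_subtype_iff_indicator.mp h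
  refine h1.congr_cofinite ?_
  have h2 : {n : ℕ | n ≤ B}ᶜ ∈ (cofinite : Filter ℕ) :=
    (Set.finite_le_nat B).compl_mem_cofinite
  filter_upwards [h2] with n hn
  have hn' : B < n := not_le.mp hn
  by_cases hp : n.Prime
  · rw [Set.indicator_of_mem (show n ∈ {p : ℕ | p.Prime ∧ B < p} from ⟨hp, hn'⟩),
      Set.indicator_of_mem (show n ∈ {p : ℕ | p.Prime} from hp)]
  · rw [Set.indicator_of_notMem (show n ∉ {p : ℕ | p.Prime ∧ B < p} from fun h => hp h.1),
      Set.indicator_of_notMem (show n ∉ {p : ℕ | p.Prime} from hp)]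

lemma exists_sum_ge {B : ℕ} {δ : Big B → ℝ} (hδ : ∀ i : Big B, (1 : ℝ) / ((i : ℕ) : ℝ) ≤ δ i)
    (b : ℝ) : ∃ s : Finset (Big B), b ≤ ∑ i ∈ s, δ i := by
  by_contra hcon
  push Not at hcon
  refine not_summable_big B (summable_of_sum_le (c := b) (fun i => by positivity) fun s => ?_)
  exact (Finset.sum_le_sum fun i _ => hδ i).trans (hcon s).le

/-- The proportion of the elements of `GL₂(𝔽_p)` whose trace and determinant satisfy `P`. -/
def prp (p : ℕ) [Fact p.Prime] (P : ZMod p → ZMod p → Prop) : ℝ :=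
  (Nat.card (trDetSet P) : ℝ) / Nat.card (GL (Fin 2) (ZMod p))

/-- One prime. -/
theorem dens_single (hM : M.Cheb) (hΔ : W.Δ ≠ 0) {p : ℕ} [hp : Fact p.Prime] (h5 : 5 ≤ p)
    (hs : Function.Surjective (repP p hΔ)) (P : ZMod p → ZMod p → Prop) :
    M.Dens {ℓ | W.IsGoodPrimeFor ℓ ∧ P (W.apOfModel ℓ : ZMod p) (ℓ : ZMod p)} (prp p P) := by
  have h := dens_joint hΔ hM (q := fun _ : Unit => p) (fun _ _ _ => rfl) (fun _ => h5)
    (fun _ => hs) (fun _ => P)
  rw [Fintype.prod_unique] at h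
  have e : {ℓ : ℕ | W.IsGoodPrimeFor ℓ ∧ ∀ _ : Unit, P (W.apOfModel ℓ : ZMod p) (ℓ : ZMod p)} =
      {ℓ | W.IsGoodPrimeFor ℓ ∧ P (W.apOfModel ℓ : ZMod p) (ℓ : ZMod p)} := by
    ext ℓ
    simp
  rw [e] at h
  exact h

/-- Two different primes. -/
theorem dens_pair (hM : M.Cheb) (hΔ : W.Δ ≠ 0) {B : ℕ} (hB : 4 ≤ B)
    (hs : ∀ i : Big B, Function.Surjective (repP i hΔ))
    (Q : ∀ i : Big B, ZMod i → ZMod i → Prop) {i j : Big B} (hij : i ≠ j) :
    M.Dens ({ℓ | W.IsGoodPrimeFor ℓ ∧ Q i (W.apOfModel ℓ : ZMod i) (ℓ : ZMod i)} ∩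
      {ℓ | W.IsGoodPrimeFor ℓ ∧ Q j (W.apOfModel ℓ : ZMod j) (ℓ : ZMod j)})
      (prp i (Q i) * prp j (Q j)) := by
  let c : Bool → Big B := fun b => cond b i j
  have hc : Function.Injective fun b => ((c b : Big B) : ℕ) := by
    intro b b' h
    have h1 : c b = c b' := Subtype.ext h
    cases b <;> cases b'
    · rfl
    · exact absurd h1.symm hij
    · exact absurd h1 hij
    · rfl
  have h := dens_joint hΔ hM (q := fun b => ((c b : Big B) : ℕ)) hc
    (fun b => by have := (c b).2.2; omega) (fun b => hs (c b)) (fun b => Q (c b))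
  rw [Fintype.prod_bool] at h
  have e : {ℓ : ℕ | W.IsGoodPrimeFor ℓ ∧ ∀ b : Bool,
      Q (c b) (W.apOfModel ℓ : ZMod (c b)) (ℓ : ZMod (c b))} =
      {ℓ | W.IsGoodPrimeFor ℓ ∧ Q i (W.apOfModel ℓ : ZMod i) (ℓ : ZMod i)} ∩
      {ℓ | W.IsGoodPrimeFor ℓ ∧ Q j (W.apOfModel ℓ : ZMod j) (ℓ : ZMod j)} := by
    ext ℓ
    constructor
    · rintro ⟨hg, h⟩
      exact ⟨⟨hg, h true⟩, ⟨hg, h false⟩⟩
    · rintro ⟨⟨hg, h1⟩, -, h2⟩
      refine ⟨hg, fun b => ?_⟩
      cases b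
      · exact h2
      · exact h1
  rw [e] at h
  exact h

/-- **Almost all primes satisfy more than `k` of the conditions `Q_p`** on `(a_ℓ, ℓ)` modulo `p`
if the condition modulo `p` is satisfied by at least `1 / p` of the elements of `GL₂(𝔽_p)`. -/
theorem dens_zero_of_conditions (hM : M.Cheb) (hΔ : W.Δ ≠ 0) {B : ℕ} (hB : 4 ≤ B)
    (hs : ∀ i : Big B, Function.Surjective (repP i hΔ))
    (Q : ∀ i : Big B, ZMod i → ZMod i → Prop)
    (hQ : ∀ i : Big B, (1 : ℝ) / ((i : ℕ) : ℝ) ≤ prp i (Q i)) (k : ℕ) (S : Set ℕ)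
    (hS : ∀ ℓ : ℕ, ℓ.Prime → ℓ ∈ S → ∀ s : Finset (Big B),
      (∀ i ∈ s, W.IsGoodPrimeFor ℓ ∧ Q i (W.apOfModel ℓ : ZMod i) (ℓ : ZMod i)) → s.card ≤ k) :
    M.Dens S 0 := by
  refine MeanSys.dens_zero_of_indep
    (fun i : Big B => {ℓ | W.IsGoodPrimeFor ℓ ∧ Q i (W.apOfModel ℓ : ZMod i) (ℓ : ZMod i)})
    (fun i => prp i (Q i)) (fun i => dens_single hM hΔ (by have := i.2.2; omega) (hs i) (Q i))
    (fun i j hij => dens_pair hM hΔ hB hs Q hij) (exists_sum_ge hQ) k S ?_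
  intro ℓ hℓ hℓS s
  exact hS ℓ hℓ hℓS s

/-- Bad primes do not matter. -/
lemma dens_of_good (hΔ : W.Δ ≠ 0) {R : Set ℕ} {δ : ℝ}
    (h : M.Dens {ℓ | W.IsGoodPrimeFor ℓ ∧ ℓ ∈ R} δ) : M.Dens R δ := by
  refine MeanSys.Has.congr_of_finset (bdd_chr _) (bdd_chr _) h W.Δ.natAbs.primeFactors
    fun ℓ hℓ hℓΔ => chr_congr ?_
  have hgood : W.IsGoodPrimeFor ℓ := fun h => hℓΔ (Nat.mem_primeFactors.mpr
    ⟨hℓ, Int.natCast_dvd.mp h, Int.natAbs_ne_zero.mpr hΔ⟩)
  exact ⟨fun h => h.2, fun h => ⟨hgood, h⟩⟩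

section Counts

variable {p : ℕ} [hp : Fact p.Prime]

lemma prp_trace_le (h5 : 5 ≤ p) (a : ZMod p) : prp p (fun x _ => x = a) ≤ 1 / (p - 1) := by
  have h1 := Count.card_GL_trace (Cheb.ringChar_ne_two (p := p) (by omega)) a
  rw [ZMod.card] at h1
  have h2 : (Nat.card (trDetSet (p := p) fun x _ => x = a) : ℝ) ≤ p ^ 3 - p ^ 2 := by
    have h3 : (Nat.card (trDetSet (p := p) fun x _ => x = a) : ℤ) ≤ p ^ 3 - p ^ 2 := by
      refine le_of_eq_of_le h1 ?_
      split_ifs <;> omega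
    exact_mod_cast h3
  have h3 : (5 : ℝ) ≤ p := by exact_mod_cast h5
  have h4 : (0 : ℝ) < p - 1 := by linarith
  rw [prp, Cheb.card_GL2_real, div_le_div_iff₀ (by positivity) h4]
  have h5 : (Nat.card (trDetSet (p := p) fun x _ => x = a) : ℝ) * (p - 1) ≤
      (p ^ 3 - p ^ 2) * (p - 1) := mul_le_mul_of_nonneg_right h2 h4.le
  nlinarith [mul_pos (show (0 : ℝ) < p by linarith) (pow_pos h4 2)]

lemma le_prp_zero (h5 : 5 ≤ p) : (1 : ℝ) / p ≤ prp p (fun x _ => x = 0) := by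
  have h1 := Count.card_GL_trace (Cheb.ringChar_ne_two (p := p) (by omega)) (0 : ZMod p)
  rw [ZMod.card, if_pos rfl] at h1
  have h2 : (Nat.card (trDetSet (p := p) fun x _ => x = 0) : ℝ) = p ^ 3 - p ^ 2 := by
    have h3 : (Nat.card (trDetSet (p := p) fun x _ => x = 0) : ℤ) = p ^ 3 - p ^ 2 - 0 := h1
    rw [sub_zero] at h3
    exact_mod_cast h3
  have h3 : (5 : ℝ) ≤ p := by exact_mod_cast h5
  have h4 : (0 : ℝ) < p - 1 := by linarith
  rw [prp, Cheb.card_GL2_real, h2, div_le_div_iff₀ (by linarith) (by positivity)]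
  nlinarith [mul_pos (show (0 : ℝ) < p by linarith) (pow_pos h4 2)]

lemma le_prp_one (h5 : 5 ≤ p) : (1 : ℝ) / p ≤ prp p (fun x y => x = 1 + y) := by
  have h1 := Count.card_GL_eigen_one (F := ZMod p) (Cheb.ringChar_ne_two (p := p) (by omega))
  rw [ZMod.card] at h1
  have h2 : (Nat.card (trDetSet (p := p) fun x y => x = 1 + y) : ℝ) = p ^ 3 - 2 * p := by
    have h3 : (Nat.card (trDetSet (p := p) fun x y => x = 1 + y) : ℤ) = p ^ 3 - 2 * p := h1
    exact_mod_cast h3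
  have h3 : (5 : ℝ) ≤ p := by exact_mod_cast h5
  have h4 : (0 : ℝ) < p - 1 := by linarith
  rw [prp, Cheb.card_GL2_real, h2, div_le_div_iff₀ (by linarith) (by positivity)]
  nlinarith [mul_pos (show (0 : ℝ) < p by linarith) (pow_pos h4 2),
    mul_pos (show (0 : ℝ) < p by linarith) h4]

/-- The proportion of the elements of `GL₂(𝔽_p)` without the eigenvalue `1`. -/
theorem prp_not_one (hp2 : p ≠ 2) :
    prp p (fun x y => ¬ x = 1 + y) = 1 - (p ^ 2 - 2) / ((p - 1) ^ 2 * (p + 1)) := by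
  have h0 : prp p (fun x y => x = 1 + y) = (p ^ 2 - 2) / ((p - 1) ^ 2 * (p + 1)) := by
    have h1 := Count.card_GL_eigen_one (Cheb.ringChar_ne_two hp2)
    rw [ZMod.card] at h1
    have h2 : (Nat.card (trDetSet (p := p) fun x y => x = 1 + y) : ℝ) = p ^ 3 - 2 * p := by
      exact_mod_cast h1
    have h3 := Cheb.real_pos (p := p) hp2
    have h4 : (p : ℝ) - 1 ≠ 0 := by linarith
    have h5 : (p : ℝ) + 1 ≠ 0 := by linarith
    have h6 : (p : ℝ) ≠ 0 := by linarith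
    rw [prp, h2, Cheb.card_GL2_real]
    field_simp
  rw [← h0]
  have h1 : (Nat.card (GL (Fin 2) (ZMod p)) : ℝ) ≠ 0 := by
    have h2 : 0 < Nat.card (GL (Fin 2) (ZMod p)) := Nat.card_pos
    exact_mod_cast h2.ne'
  have h3 : Nat.card (trDetSet (p := p) fun x y => x = 1 + y) +
      Nat.card (trDetSet (p := p) fun x y => ¬ x = 1 + y) =
      Nat.card (GL (Fin 2) (ZMod p)) := by
    rw [Nat.card_coe_set_eq, Nat.card_coe_set_eq]
    exact Set.ncard_add_ncard_compl (trDetSet (p := p) fun x y => x = 1 + y)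
  rw [prp, prp, eq_sub_iff_add_eq, ← add_div, div_eq_one_iff_eq h1]
  rw [add_comm] at h3
  exact_mod_cast h3

end Counts

/-- `p` divides `#W(𝔽_ℓ)` if and only if `a_ℓ ≡ 1 + ℓ` modulo `p`. -/
lemma eq_iff_dvd_card {p ℓ : ℕ} :
    (W.apOfModel ℓ : ZMod p) = 1 + (ℓ : ZMod p) ↔ p ∣ (W.reductionMod ℓ).card := by
  have h7 : W.apOfModel ℓ = (ℓ : ℤ) + 1 - ((W.reductionMod ℓ).card : ℤ) := by
    unfold apOfModel traceOfFrobenius
    rw [Nat.card_zmod]
  rw [h7, ← ZMod.natCast_eq_zero_iff]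
  push_cast
  constructor
  · intro h8
    linear_combination -h8
  · intro h8
    linear_combination -h8

section Results

variable (hM : M.Cheb) (hΔ : W.Δ ≠ 0) {B : ℕ}
  (hB : ∀ (p : ℕ) [Fact p.Prime], B < p → Function.Surjective (repP p hΔ))

include hM hB

/-- **For every integer `t` the primes `ℓ` with `a_ℓ = t` have density zero** (Serre). -/
theorem dens_apOfModel_eq (t : ℤ) : M.Dens {ℓ | W.apOfModel ℓ = t} 0 := by
  refine dens_of_good hΔ ?_
  refine MeanSys.has_zero_of_le (bdd_chr _) (fun p _ => chr_nonneg _ p) fun ε hε => ?_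
  obtain ⟨n, hn⟩ := exists_nat_gt (1 / ε)
  obtain ⟨p, hpge, hp⟩ := Nat.exists_infinite_primes (B + n + 5)
  have : Fact p.Prime := ⟨hp⟩
  refine ⟨chr {ℓ | W.IsGoodPrimeFor ℓ ∧ (W.apOfModel ℓ : ZMod p) = (t : ZMod p)}, bdd_chr _,
    fun ℓ _ => chr_mono fun h => ⟨h.1, by rw [show W.apOfModel ℓ = t from h.2]⟩,
    prp p (fun x _ => x = (t : ZMod p)), ?_, dens_single hM hΔ (by omega) (hB p (by omega))
      fun x _ => x = (t : ZMod p)⟩
  refine (prp_trace_le (by omega) _).trans ?_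
  have h1 : (n : ℝ) ≤ p - 1 := by
    have h2 : (n : ℝ) + 1 ≤ p := by
      have h3 : n + 1 ≤ p := by omega
      exact_mod_cast h3
    linarith
  have h2 : 1 / ε < (p : ℝ) - 1 := hn.trans_le h1
  have h3 : (0 : ℝ) < p - 1 := (by positivity : (0 : ℝ) < 1 / ε).trans h2
  rw [div_le_iff₀ h3]
  rw [div_lt_iff₀ hε] at h2
  linarith

/-- **Almost all primes are ordinary**: the primes of supersingular reduction have density
zero. -/
theorem dens_supersingular : M.Dens {ℓ | (ℓ : ℤ) ∣ W.apOfModel ℓ} 0 := by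
  refine dens_of_good hΔ ?_
  refine MeanSys.Has.congr_of_finset (bdd_chr {ℓ | W.apOfModel ℓ = 0 ∧ W.IsGoodPrimeFor ℓ})
    (bdd_chr _) (MeanSys.dens_mono_zero (dens_apOfModel_eq hM hΔ hB 0) fun ℓ _ h => h.1)
    (Finset.range 5) fun ℓ hℓ hℓ5 => chr_congr ?_
  rw [Finset.mem_range, not_lt] at hℓ5
  constructor
  · rintro ⟨h1, h2⟩
    refine ⟨h2, ?_⟩
    show (ℓ : ℤ) ∣ W.apOfModel ℓ
    rw [h1]
    exact dvd_zero _
  · rintro ⟨h1, h2⟩
    refine ⟨?_, h1⟩
    have : Fact ℓ.Prime := ⟨hℓ⟩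
    have : (W.reductionMod ℓ).IsElliptic := ECFrob.isElliptic_reductionMod h1
    have h3 := ECFrob.hasse_bound (W.reductionMod ℓ)
    rw [ZMod.card] at h3
    change W.apOfModel ℓ ^ 2 ≤ 4 * ℓ at h3
    by_contra h0
    have h4 : (ℓ : ℤ) ≤ |W.apOfModel ℓ| :=
      Int.le_of_dvd (abs_pos.mpr h0) ((dvd_abs _ _).mpr h2)
    have h5 : (ℓ : ℤ) ^ 2 ≤ W.apOfModel ℓ ^ 2 := by
      rw [← sq_abs (W.apOfModel ℓ)]
      exact pow_le_pow_left₀ (by positivity) h4 2
    have h6 : (5 : ℤ) ≤ ℓ := by exact_mod_cast hℓ5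
    nlinarith

/-- **Almost all `#W(𝔽_ℓ)` have many prime factors**: for every `k` the primes `ℓ` such that the
number of points of `W` over `𝔽_ℓ` has at most `k` different prime factors have density zero. -/
theorem dens_card_primeFactors (k : ℕ) :
    M.Dens {ℓ | (W.reductionMod ℓ).card.primeFactors.card ≤ k} 0 := by
  refine dens_zero_of_conditions hM hΔ (B := B + 4) (by omega)
    (fun i => hB i (by have := i.2.2; omega)) (fun i x y => x = 1 + y)
    (fun i => le_prp_one (by have := i.2.2; omega)) k _ fun ℓ hℓ hℓS s hs => ?_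
  have : Fact ℓ.Prime := ⟨hℓ⟩
  refine le_trans ?_ (show (W.reductionMod ℓ).card.primeFactors.card ≤ k from hℓS)
  refine Finset.card_le_card_of_injOn (fun i : Big (B + 4) => (i : ℕ)) (fun i hi => ?_)
    fun i _ j _ h => Subtype.ext h
  replace hi := (hs i (Finset.mem_coe.mp hi)).2
  rw [Finset.mem_coe, Nat.mem_primeFactors]
  have h0 := (S58aux.card_bounds ℓ (W.reductionMod ℓ)).1
  exact ⟨i.2.1, eq_iff_dvd_card.mp hi, by omega⟩

/-- **Almost all `a_ℓ` have many prime factors** (and are different from `0`). -/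
theorem dens_ap_primeFactors (k : ℕ) :
    M.Dens {ℓ | (W.apOfModel ℓ).natAbs.primeFactors.card ≤ k} 0 := by
  have h1 : M.Dens {ℓ | W.apOfModel ℓ ≠ 0 ∧ (W.apOfModel ℓ).natAbs.primeFactors.card ≤ k} 0 := by
    refine dens_zero_of_conditions hM hΔ (B := B + 4) (by omega)
      (fun i => hB i (by have := i.2.2; omega)) (fun i x y => x = 0)
      (fun i => le_prp_zero (by have := i.2.2; omega)) k _ fun ℓ hℓ hℓS s hs => ?_
    refine le_trans ?_ hℓS.2
    refine Finset.card_le_card_of_injOn (fun i : Big (B + 4) => (i : ℕ)) (fun i hi => ?_)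
      fun i _ j _ h => Subtype.ext h
    replace hi := (hs i (Finset.mem_coe.mp hi)).2
    rw [Finset.mem_coe, Nat.mem_primeFactors]
    refine ⟨i.2.1, ?_, Int.natAbs_ne_zero.mpr hℓS.1⟩
    rw [ZMod.intCast_zmod_eq_zero_iff_dvd] at hi
    exact Int.natCast_dvd.mp hi
  refine MeanSys.dens_mono_zero
    (MeanSys.dens_union_zero h1 (dens_apOfModel_eq hM hΔ hB 0)) fun ℓ _ h => ?_
  by_cases h0 : W.apOfModel ℓ = 0
  · exact Or.inr h0
  · exact Or.inl ⟨h0, h⟩

/-- `#W(𝔽_ℓ)` is almost never a prime number or a power of a prime number. -/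
theorem dens_card_isPrimePow : M.Dens {ℓ | IsPrimePow (W.reductionMod ℓ).card} 0 := by
  refine MeanSys.dens_mono_zero (dens_card_primeFactors hM hΔ hB 1) fun ℓ _ h => ?_
  exact (isPrimePow_iff_card_primeFactors_eq_one.mp h).le

end Results

/-! ### Independence for finitely many primes -/

/-- The density of the primes `ℓ` for which `#W(𝔽_ℓ)` is divisible by no prime `p ∈ S` is
`∏_{p ∈ S} (1 - (p² - 2) / ((p - 1)² (p + 1)))`. -/
theorem dens_coprime_card (hM : M.Cheb) (hΔ : W.Δ ≠ 0) (S : Finset ℕ)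
    (hS : ∀ p ∈ S, p.Prime ∧ 5 ≤ p)
    (hs : ∀ p ∈ S, ∀ [Fact p.Prime], Function.Surjective (repP p hΔ)) :
    M.Dens {ℓ | W.IsGoodPrimeFor ℓ ∧ ∀ p ∈ S, ¬ p ∣ (W.reductionMod ℓ).card}
      (∏ p ∈ S, (1 - ((p : ℝ) ^ 2 - 2) / ((p - 1) ^ 2 * (p + 1)))) := by
  have hF : ∀ i : S, Fact (i : ℕ).Prime := fun i => ⟨(hS i i.2).1⟩
  have h := dens_joint hΔ hM (q := fun i : S => (i : ℕ)) Subtype.val_injective
    (fun i => (hS i i.2).2) (fun i => hs i i.2) (fun i x y => ¬ x = 1 + y)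
  have e1 : ∏ i : S, ((Nat.card (trDetSet (p := (i : ℕ)) fun x y => ¬ x = 1 + y) : ℝ) /
      Nat.card (GL (Fin 2) (ZMod (i : ℕ)))) =
      ∏ p ∈ S, (1 - ((p : ℝ) ^ 2 - 2) / ((p - 1) ^ 2 * (p + 1))) := by
    rw [← Finset.prod_coe_sort S
      fun p : ℕ => (1 - ((p : ℝ) ^ 2 - 2) / (((p : ℝ) - 1) ^ 2 * ((p : ℝ) + 1)))]
    exact Finset.prod_congr rfl fun i _ => prp_not_one (by have := (hS i i.2).2; omega)
  rw [e1] at h
  have e2 : {ℓ : ℕ | W.IsGoodPrimeFor ℓ ∧ ∀ i : S, ¬ (W.apOfModel ℓ : ZMod (i : ℕ)) =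
      1 + (ℓ : ZMod (i : ℕ))} =
      {ℓ | W.IsGoodPrimeFor ℓ ∧ ∀ p ∈ S, ¬ p ∣ (W.reductionMod ℓ).card} := by
    ext ℓ
    refine and_congr_right fun _ => ⟨fun h p hp => ?_, fun h i => ?_⟩
    · have h1 := h ⟨p, hp⟩
      rwa [eq_iff_dvd_card] at h1
    · rw [eq_iff_dvd_card]
      exact h i i.2
  rw [e2] at h
  exact h

end Fermat.Agent.Cor.AlmostAll
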