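import Fermat.Agent.Frob.Chebotarev

/-!
# Notions of mean value over the prime numbers

`MeanSys` : a family of positive linear functionals on the bounded functions on the primes,
indexed by a filter.  `M.Has a m` : the mean value of `a` is `m`.  The two examples are the
analytic (Dirichlet) mean value `dirichlet` (here) and the natural one (`AlmostAll/Natural`).

* `MeanSys.has_zero_of_le` : a nonnegative function which is bounded by functions of arbitrarily
  small mean value has mean value zero;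
* `MeanSys.has_zero_of_sq` : **Turán's method**: if the variances of `X_j` are at most
  their means `μ_j → ∞`, then the primes where all `X_j ≤ k` have density zero.
-/

set_option autoImplicit false

noncomputable section

open Filter Topology

open scoped Classical

namespace Fermat.Agent.Cor.AlmostAll

open Fermat.Agent.Frob Fermat.Agent.FrobDensity

local notation "GQ" => (AlgebraicClosure ℚ ≃ₐ[ℚ] AlgebraicClosure ℚ)

/-- Bounded functions. -/
def Bdd (a : ℕ → ℝ) : Prop := ∃ C : ℝ, ∀ n, |a n| ≤ C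

namespace Bdd

variable {a b : ℕ → ℝ}

lemma const (c : ℝ) : Bdd fun _ => c := ⟨|c|, fun _ => le_rfl⟩

lemma add (ha : Bdd a) (hb : Bdd b) : Bdd fun n => a n + b n := by
  obtain ⟨C, hC⟩ := ha
  obtain ⟨D, hD⟩ := hb
  exact ⟨C + D, fun n => (abs_add_le _ _).trans (add_le_add (hC n) (hD n))⟩

lemma mul (ha : Bdd a) (hb : Bdd b) : Bdd fun n => a n * b n := by
  obtain ⟨C, hC⟩ := ha
  obtain ⟨D, hD⟩ := hb
  refine ⟨C * D, fun n => ?_⟩
  rw [abs_mul]
  exact mul_le_mul (hC n) (hD n) (abs_nonneg _) ((abs_nonneg _).trans (hC n))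

lemma sum {ι : Type*} (s : Finset ι) {a : ι → ℕ → ℝ} (ha : ∀ i ∈ s, Bdd (a i)) :
    Bdd fun n => ∑ i ∈ s, a i n := by
  induction s using Finset.induction_on with
  | empty =>
    simp only [Finset.sum_empty]
    exact const 0
  | insert i s hi ih =>
    simp only [Finset.sum_insert hi]
    exact (ha i (Finset.mem_insert_self i s)).add
      (ih fun j hj => ha j (Finset.mem_insert_of_mem hj))

end Bdd

/-- The characteristic function of a set of natural numbers. -/
def chr (S : Set ℕ) (n : ℕ) : ℝ := if n ∈ S then 1 else 0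

lemma chr_nonneg (S : Set ℕ) (n : ℕ) : 0 ≤ chr S n := by
  unfold chr
  split_ifs <;> simp

lemma chr_le_one (S : Set ℕ) (n : ℕ) : chr S n ≤ 1 := by
  unfold chr
  split_ifs <;> simp

lemma bdd_chr (S : Set ℕ) : Bdd (chr S) :=
  ⟨1, fun n => by rw [abs_of_nonneg (chr_nonneg S n)]; exact chr_le_one S n⟩

lemma chr_mono {S S' : Set ℕ} {n : ℕ} (h : n ∈ S → n ∈ S') : chr S n ≤ chr S' n := by
  unfold chr
  split_ifs with h1 h2
  · exact le_rfl
  · exact absurd (h h1) h2
  · exact zero_le_one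
  · exact le_rfl

lemma chr_congr {S S' : Set ℕ} {n : ℕ} (h : n ∈ S ↔ n ∈ S') : chr S n = chr S' n := by
  unfold chr
  simp only [h]

lemma chr_mul (S S' : Set ℕ) (n : ℕ) : chr S n * chr S' n = chr (S ∩ S') n := by
  unfold chr
  by_cases h1 : n ∈ S <;> by_cases h2 : n ∈ S' <;> simp [h1, h2]

/-- A notion of mean value over the primes. -/
structure MeanSys where
  /-- the index set -/
  ι : Type
  /-- the filter -/
  F : Filter ι
  /-- the functionals -/
  A : ι → (ℕ → ℝ) → ℝ
  add : ∀ᶠ i in F, ∀ a b, Bdd a → Bdd b → A i (fun n => a n + b n) = A i a + A i b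
  smul : ∀ᶠ i in F, ∀ (c : ℝ) (a : ℕ → ℝ), Bdd a → A i (fun n => c * a n) = c * A i a
  mono : ∀ᶠ i in F, ∀ a b, Bdd a → Bdd b → (∀ p : ℕ, p.Prime → a p ≤ b p) → A i a ≤ A i b
  one : Tendsto (fun i => A i fun _ => 1) F (𝓝 1)
  fin : ∀ a, Bdd a → ∀ T : Finset ℕ, (∀ p : ℕ, p.Prime → p ∉ T → a p = 0) →
    Tendsto (fun i => A i a) F (𝓝 0)

namespace MeanSys

variable (M : MeanSys)

/-- The mean value of `a` is `m`. -/
def Has (a : ℕ → ℝ) (m : ℝ) : Prop := Tendsto (fun i => M.A i a) M.F (𝓝 m)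

/-- The set of primes in `S` has density `δ`. -/
def Dens (S : Set ℕ) (δ : ℝ) : Prop := M.Has (chr S) δ

variable {M} {a b : ℕ → ℝ} {m m' : ℝ}

lemma Has.add (ha : Bdd a) (hb : Bdd b) (h : M.Has a m) (h' : M.Has b m') :
    M.Has (fun n => a n + b n) (m + m') := by
  refine (Tendsto.add h h').congr' ?_
  filter_upwards [M.add] with i hi
  exact (hi a b ha hb).symm

lemma Has.smul (ha : Bdd a) (c : ℝ) (h : M.Has a m) : M.Has (fun n => c * a n) (c * m) := by
  refine (Tendsto.const_mul c h).congr' ?_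
  filter_upwards [M.smul] with i hi
  exact (hi c a ha).symm

lemma has_const (c : ℝ) : M.Has (fun _ => c) c := by
  have h := Has.smul (M := M) (Bdd.const 1) c M.one
  simpa using h

lemma Has.sum {ι : Type*} (s : Finset ι) {a : ι → ℕ → ℝ} {m : ι → ℝ} (ha : ∀ i ∈ s, Bdd (a i))
    (h : ∀ i ∈ s, M.Has (a i) (m i)) : M.Has (fun n => ∑ i ∈ s, a i n) (∑ i ∈ s, m i) := by
  induction s using Finset.induction_on with
  | empty =>
    simp only [Finset.sum_empty]
    exact has_const 0
  | insert i s hi ih =>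
    simp only [Finset.sum_insert hi]
    exact Has.add (ha i (Finset.mem_insert_self i s))
      (Bdd.sum s fun j hj => ha j (Finset.mem_insert_of_mem hj))
      (h i (Finset.mem_insert_self i s))
      (ih (fun j hj => ha j (Finset.mem_insert_of_mem hj))
        fun j hj => h j (Finset.mem_insert_of_mem hj))

/-- The mean value does not depend on the values at finitely many primes. -/
lemma Has.congr_of_finset (ha : Bdd a) (hb : Bdd b) (h : M.Has a m) (T : Finset ℕ)
    (hT : ∀ p : ℕ, p.Prime → p ∉ T → a p = b p) : M.Has b m := by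
  have h1 : M.Has (fun n => b n + -1 * a n) 0 :=
    M.fin _ (hb.add ((Bdd.const (-1)).mul ha)) T fun p hp hpT => by
      rw [hT p hp hpT]
      ring
  have h2 := Has.add (hb.add ((Bdd.const (-1)).mul ha)) ha h1 h
  rw [zero_add] at h2
  have h3 : (fun n => b n + -1 * a n + a n) = b := by
    funext n
    ring
  rwa [h3] at h2

/-- A nonnegative function which is bounded by functions of arbitrarily small mean value has mean
value zero. -/
theorem has_zero_of_le (ha : Bdd a) (ha0 : ∀ p : ℕ, p.Prime → 0 ≤ a p)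
    (h : ∀ ε : ℝ, 0 < ε → ∃ b : ℕ → ℝ, Bdd b ∧ (∀ p : ℕ, p.Prime → a p ≤ b p) ∧
      ∃ m, m ≤ ε ∧ M.Has b m) : M.Has a 0 := by
  unfold Has
  rw [tendsto_order]
  constructor
  · intro c hc
    have h0 : M.Has (fun _ => (0 : ℝ)) 0 := has_const 0
    filter_upwards [M.mono, (tendsto_order.1 h0).1 c hc] with i h1 h2
    exact h2.trans_le (h1 _ _ (Bdd.const 0) ha ha0)
  · intro c hc
    obtain ⟨b, hb, hab, m, hm, hbm⟩ := h (c / 2) (by linarith)
    filter_upwards [M.mono, (tendsto_order.1 hbm).2 c (by linarith)] with i h1 h2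
    exact (h1 _ _ ha hb hab).trans_lt h2

lemma dens_mono_zero {S S' : Set ℕ} (h : M.Dens S' 0) (hSS : ∀ p : ℕ, p.Prime → p ∈ S → p ∈ S') :
    M.Dens S 0 := by
  refine has_zero_of_le (bdd_chr S) (fun p _ => chr_nonneg S p) fun ε hε => ?_
  exact ⟨chr S', bdd_chr S', fun p hp => chr_mono (hSS p hp), 0, hε.le, h⟩

lemma dens_union_zero {S S' : Set ℕ} (h : M.Dens S 0) (h' : M.Dens S' 0) :
    M.Dens (S ∪ S') 0 := by
  refine has_zero_of_le (bdd_chr _) (fun p _ => chr_nonneg _ p) fun ε hε => ?_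
  refine ⟨fun n => chr S n + chr S' n, (bdd_chr S).add (bdd_chr S'), fun p _ => ?_, 0 + 0,
    by linarith, Has.add (bdd_chr S) (bdd_chr S') h h'⟩
  unfold chr
  by_cases h1 : p ∈ S <;> by_cases h2 : p ∈ S' <;> simp [h1, h2]

/-- The complement of a set of density zero has density one. -/
lemma dens_compl_one {S : Set ℕ} (h : M.Dens S 0) : M.Dens Sᶜ 1 := by
  have h1 := Has.add (Bdd.const 1) ((Bdd.const (-1)).mul (bdd_chr S)) (has_const (M := M) 1)
    (Has.smul (bdd_chr S) (-1) h)
  rw [mul_zero, add_zero] at h1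
  have h2 : (fun n => (1 : ℝ) + -1 * chr S n) = chr Sᶜ := by
    funext n
    unfold chr
    by_cases hn : n ∈ S <;> simp [hn]
  rwa [h2] at h1

/-- **Turán's method.** `E p` (`p ∈ P`) sets of primes of density `δ p`, pairwise independent,
with `∑ δ p = ∞`: for every `k` the primes which belong to at most `k` of the sets have
density zero. -/
theorem dens_zero_of_indep {ι : Type*} (E : ι → Set ℕ) (δ : ι → ℝ)
    (h1 : ∀ i, M.Dens (E i) (δ i)) (h2 : ∀ i j, i ≠ j → M.Dens (E i ∩ E j) (δ i * δ j))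
    (hdiv : ∀ B : ℝ, ∃ s : Finset ι, B ≤ ∑ i ∈ s, δ i) (k : ℕ) (S : Set ℕ)
    (hS : ∀ ℓ : ℕ, ℓ.Prime → ℓ ∈ S → ∀ s : Finset ι, (∀ i ∈ s, ℓ ∈ E i) → s.card ≤ k) :
    M.Dens S 0 := by
  refine has_zero_of_le (bdd_chr S) (fun p _ => chr_nonneg S p) fun ε hε => ?_
  -- choose the finite set
  obtain ⟨s, hs⟩ := hdiv (2 * k + 4 / ε + 1)
  set μ := ∑ i ∈ s, δ i with hμ
  have hk : (0 : ℝ) ≤ k := Nat.cast_nonneg k
  have hε4 : 0 < 4 / ε := by positivity
  have hμ0 : 0 < μ := by linarith
  have hμk : μ / 2 < μ - k := by linarith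
  have hμk0 : 0 < μ - k := by linarith
  -- the random variable
  let X : ℕ → ℝ := fun n => ∑ i ∈ s, chr (E i) n
  have hXb : Bdd X := Bdd.sum s fun i _ => bdd_chr (E i)
  have hX : M.Has X μ := Has.sum s (fun i _ => bdd_chr (E i)) fun i _ => h1 i
  -- the second moment
  let Y : ℕ → ℝ := fun n => ∑ q ∈ s ×ˢ s, chr (E q.1 ∩ E q.2) n
  have hYb : Bdd Y := Bdd.sum _ fun q _ => bdd_chr _
  have hXY : ∀ n, X n * X n = Y n := by
    intro n
    show (∑ i ∈ s, chr (E i) n) * (∑ i ∈ s, chr (E i) n) = ∑ q ∈ s ×ˢ s, chr (E q.1 ∩ E q.2) n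
    rw [Finset.sum_mul_sum, Finset.sum_product]
    exact Finset.sum_congr rfl fun i _ => Finset.sum_congr rfl fun j _ => chr_mul _ _ n
  let v : ι × ι → ℝ := fun q => if q.1 = q.2 then δ q.1 else δ q.1 * δ q.2
  have hY : M.Has Y (∑ q ∈ s ×ˢ s, v q) := by
    refine Has.sum _ (fun q _ => bdd_chr _) fun q _ => ?_
    show M.Has (chr (E q.1 ∩ E q.2)) (if q.1 = q.2 then δ q.1 else δ q.1 * δ q.2)
    split_ifs with hq
    · rw [← hq, Set.inter_self]
      exact h1 q.1
    · exact h2 q.1 q.2 hq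
  have hv : ∑ q ∈ s ×ˢ s, v q ≤ μ * μ + μ := by
    have e1 : ∀ q ∈ s ×ˢ s, v q ≤ δ q.1 * δ q.2 + if q.1 = q.2 then δ q.1 else 0 := by
      intro q _
      show (if q.1 = q.2 then δ q.1 else δ q.1 * δ q.2) ≤ _
      split_ifs with hq
      · rw [← hq]
        nlinarith [mul_self_nonneg (δ q.1)]
      · rw [add_zero]
    refine (Finset.sum_le_sum e1).trans (le_of_eq ?_)
    rw [Finset.sum_add_distrib, Finset.sum_product, Finset.sum_product, ← Finset.sum_mul_sum]
    congr 1
    refine Finset.sum_congr rfl fun i hi => ?_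
    simp only [Finset.sum_ite_eq, hi, if_true]
  -- the variance
  have hVb : Bdd fun n => (Y n + -(2 * μ) * X n) + μ * μ :=
    (hYb.add ((Bdd.const _).mul hXb)).add (Bdd.const _)
  have hV : M.Has (fun n => (Y n + -(2 * μ) * X n) + μ * μ)
      ((∑ q ∈ s ×ˢ s, v q + -(2 * μ) * μ) + μ * μ) :=
    Has.add (hYb.add ((Bdd.const _).mul hXb)) (Bdd.const _)
      (Has.add hYb ((Bdd.const _).mul hXb) hY (Has.smul hXb _ hX)) (has_const _)
  refine ⟨fun n => ((μ - k) ^ 2)⁻¹ * ((Y n + -(2 * μ) * X n) + μ * μ),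
    (Bdd.const _).mul hVb, fun ℓ hℓ => ?_, _, ?_, Has.smul hVb _ hV⟩
  · show chr S ℓ ≤ ((μ - k) ^ 2)⁻¹ * ((Y ℓ + -(2 * μ) * X ℓ) + μ * μ)
    rw [← hXY]
    have e2 : X ℓ * X ℓ + -(2 * μ) * X ℓ + μ * μ = (μ - X ℓ) ^ 2 := by ring
    rw [e2]
    by_cases hℓS : ℓ ∈ S
    · have e3 : X ℓ ≤ k := by
        have e4 : X ℓ = ((s.filter fun i => ℓ ∈ E i).card : ℝ) := by
          show ∑ i ∈ s, chr (E i) ℓ = _
          unfold chr
          rw [Finset.sum_ite, Finset.sum_const_zero, add_zero, Finset.sum_const, nsmul_eq_mul,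
            mul_one]
        rw [e4]
        exact_mod_cast hS ℓ hℓ hℓS _ fun i hi => (Finset.mem_filter.mp hi).2
      have e5 : chr S ℓ = 1 := by
        unfold chr
        rw [if_pos hℓS]
      rw [e5, inv_mul_eq_div, one_le_div (by positivity)]
      exact pow_le_pow_left₀ hμk0.le (by linarith) 2
    · have e5 : chr S ℓ = 0 := by
        unfold chr
        rw [if_neg hℓS]
      rw [e5]
      positivity
  · have e6 : (∑ q ∈ s ×ˢ s, v q + -(2 * μ) * μ) + μ * μ ≤ μ := by nlinarith
    rw [inv_mul_eq_div]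
    have e7 : (μ / 2) ^ 2 ≤ (μ - k) ^ 2 := pow_le_pow_left₀ (by positivity) hμk.le 2
    have e8 : ((∑ q ∈ s ×ˢ s, v q + -(2 * μ) * μ) + μ * μ) / (μ - k) ^ 2 ≤
        μ / (μ / 2) ^ 2 := by
      refine (div_le_div_of_nonneg_right e6 (by positivity)).trans ?_
      exact div_le_div_of_nonneg_left hμ0.le (by positivity) e7
    refine e8.trans ?_
    have e9 : μ / (μ / 2) ^ 2 = 4 / μ := by
      field_simp
      ring
    rw [e9, div_le_iff₀ hμ0]
    have e10 : 4 / ε ≤ μ := by linarith
    rw [div_le_iff₀ hε] at e10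
    linarith

end MeanSys

/-- The Dirichlet mean value. -/
def dirichlet : MeanSys where
  ι := ℝ
  F := 𝓝[>] 1
  A s a := PS a s / Real.log (1 / (s - 1))
  add := by
    filter_upwards [self_mem_nhdsWithin] with s hs a b ha hb
    obtain ⟨C, hC⟩ := ha
    obtain ⟨D, hD⟩ := hb
    rw [← add_div]
    congr 1
    unfold PS
    rw [← (summable_PS hC hs).tsum_add (summable_PS hD hs)]
    exact tsum_congr fun p => by ring
  smul := by
    filter_upwards with s c a _
    rw [PS_const_mul, mul_div_assoc]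
  mono := by
    filter_upwards [self_mem_nhdsWithin, tendsto_log_atTop.eventually_gt_atTop 0]
      with s hs hlog a b ha hb hab
    obtain ⟨C, hC⟩ := ha
    obtain ⟨D, hD⟩ := hb
    refine div_le_div_of_nonneg_right ?_ hlog.le
    unfold PS
    refine (summable_PS hC hs).tsum_le_tsum (fun p => ?_) (summable_PS hD hs)
    exact mul_le_mul_of_nonneg_right (hab p p.2) (Real.rpow_nonneg (Nat.cast_nonneg _) _)
  one := tendsto_PS_one
  fin := by
    intro a ha T hT
    obtain ⟨C, hC⟩ := ha
    have hC0 : 0 ≤ C := (abs_nonneg _).trans (hC 0)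
    obtain ⟨B, hB⟩ := exists_PS_sub_le (a := a) (b := fun _ => 0) hC
      (fun n => by rw [abs_zero]; exact hC0) (T := T) hT
    refine squeeze_zero_norm' (a := fun s => B / Real.log (1 / (s - 1))) ?_
      (tendsto_log_atTop.const_div_atTop B)
    filter_upwards [self_mem_nhdsWithin, tendsto_log_atTop.eventually_gt_atTop 0] with s h1 h2
    rw [norm_div, Real.norm_eq_abs, Real.norm_eq_abs, abs_of_pos h2]
    refine div_le_div_of_nonneg_right ?_ h2.le
    have h3 := hB s h1
    have h4 : PS (fun _ => (0 : ℝ)) s = 0 := by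
      unfold PS
      simp
    rwa [h4, sub_zero] at h3

/-- The natural mean value: the limit of the means over the primes `p ≤ x`. -/
def natural : MeanSys where
  ι := ℕ
  F := atTop
  A x a := (∑ p ∈ (Finset.range (x + 1)).filter Nat.Prime, a p) / Nat.primeCounting x
  add := by
    filter_upwards with x a b _ _
    rw [Finset.sum_add_distrib, add_div]
  smul := by
    filter_upwards with x c a _
    rw [← Finset.mul_sum, mul_div_assoc]
  mono := by
    filter_upwards with x a b _ _ hab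
    refine div_le_div_of_nonneg_right (Finset.sum_le_sum fun p hp => ?_) (Nat.cast_nonneg _)
    exact hab p (Finset.mem_filter.mp hp).2
  one := by
    refine tendsto_const_nhds.congr' ?_
    filter_upwards [Filter.eventually_ge_atTop 2] with x hx
    have h1 : (∑ p ∈ (Finset.range (x + 1)).filter Nat.Prime, (1 : ℝ)) = Nat.primeCounting x := by
      rw [Finset.sum_const, nsmul_eq_mul, mul_one, Nat.primeCounting, Nat.primeCounting',
        Nat.count_eq_card_filter_range]
    rw [h1, div_self]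
    have h2 : 0 < Nat.primeCounting x := by
      have h3 := Nat.monotone_primeCounting hx
      have h4 : Nat.primeCounting 2 = 1 := by decide
      omega
    exact_mod_cast h2.ne'
  fin := by
    intro a ha T hT
    obtain ⟨C, hC⟩ := ha
    have hC0 : 0 ≤ C := (abs_nonneg _).trans (hC 0)
    have htop : Tendsto (fun x : ℕ => (Nat.primeCounting x : ℝ)) atTop atTop :=
      tendsto_natCast_atTop_atTop.comp Nat.tendsto_primeCounting
    refine squeeze_zero_norm' (a := fun x => (T.card * C) / (Nat.primeCounting x : ℝ)) ?_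
      (htop.const_div_atTop _)
    filter_upwards with x
    rw [norm_div, Real.norm_eq_abs, Real.norm_eq_abs, Nat.abs_cast]
    refine div_le_div_of_nonneg_right ?_ (Nat.cast_nonneg _)
    have h1 : (∑ p ∈ (Finset.range (x + 1)).filter Nat.Prime, a p) =
        ∑ p ∈ ((Finset.range (x + 1)).filter Nat.Prime).filter (· ∈ T), a p := by
      symm
      refine Finset.sum_subset (Finset.filter_subset _ _) fun p hp hp' => ?_
      refine hT p (Finset.mem_filter.mp hp).2 fun hpT => hp' ?_
      exact Finset.mem_filter.mpr ⟨hp, hpT⟩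
    rw [h1]
    refine (Finset.abs_sum_le_sum_abs _ _).trans ((Finset.sum_le_sum fun p _ => hC p).trans ?_)
    rw [Finset.sum_const, nsmul_eq_mul]
    refine mul_le_mul_of_nonneg_right ?_ hC0
    exact_mod_cast Finset.card_le_card fun p hp => (Finset.mem_filter.mp hp).2

/-- Chebotarev's theorem for the notion of density `M`. -/
def MeanSys.Cheb (M : MeanSys) : Prop :=
  ∀ {G : Type} [Group G] [Finite G] (ψ : GQ →* G), Function.Surjective ψ →
    (∃ L : IntermediateField ℚ (AlgebraicClosure ℚ), FiniteDimensional ℚ L ∧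
      ∀ σ : GQ, (∀ x ∈ L, σ x = x) → ψ σ = 1) → ∀ (C : Set G),
    (∀ g c : G, c ∈ C → g * c * g⁻¹ ∈ C) → M.Dens (FrobIn ψ C) ((Nat.card C : ℝ) / Nat.card G)

theorem cheb_dirichlet : dirichlet.Cheb := by
  intro G _ _ ψ hs hl C hC
  exact chebotarev_PS ψ hs hl C hC

end Fermat.Agent.Cor.AlmostAll
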