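import Fermat.Agent.Corollaries.AlmostAll.Main
import Fermat.Agent.Corollaries.Surj.NatDens

/-!
# Almost all primes: Serre's density theorems for semistable elliptic curves

`W` a semistable elliptic curve over `ℚ` (`hΔ : W.Δ ≠ 0`, `hW : W.IsSemistableModel`),
`π(x)` the number of primes `≤ x`. As `x → ∞`:

* `density_apOfModel_eq` : `#{ℓ ≤ x : a_ℓ = t} / π(x) → 0` for every integer `t`;
* `density_supersingular` : `#{ℓ ≤ x : W is supersingular at ℓ} / π(x) → 0`, and
  `density_ordinary` : `#{ℓ ≤ x : W is ordinary at ℓ} / π(x) → 1`;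
* `density_card_primeFactors` : `#{ℓ ≤ x : ω(#W(𝔽_ℓ)) ≤ k} / π(x) → 0` for every `k`,
  `density_ap_primeFactors` : `#{ℓ ≤ x : ω(a_ℓ) ≤ k} / π(x) → 0` for every `k`
  (`ω(n)` the number of prime divisors of `n`);
* `density_card_isPrimePow`, `density_card_prime` : `#W(𝔽_ℓ)` is almost never a power of a prime
  (a prime);
* `density_joint` : the conditions on `(a_ℓ, ℓ)` modulo finitely many large primes are
  independent, `density_coprime_card` : `#{ℓ ≤ x : no p ∈ S divides #W(𝔽_ℓ)} / π(x) →
  ∏_{p ∈ S} (1 - (p² - 2) / ((p - 1)² (p + 1)))`.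

`Bound W B` says that the mod `p` representation of `W` is surjective for all primes `p > B`
(`bound_of_good` : one may take `B = 2 ℓ + 1`, `ℓ` any prime of good reduction); most theorems are
also stated with this hypothesis, for any elliptic curve.  The same theorems for the Dirichlet
density follow from `AlmostAll/Main` and `cheb_dirichlet`.
-/

set_option autoImplicit false

noncomputable section

open Filter Topology Matrix WeierstrassCurve

namespace Fermat.Agent.Cor.AlmostAll

open Fermat.Agent.Frob Fermat.Agent.FrobDensity Fermat.Agent.Classic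

/-! ### The two densities -/

open scoped Classical in
lemma hasNaturalDensity_iff {S : Set ℕ} {δ : ℝ} : HasNaturalDensity S δ ↔ natural.Dens S δ := by
  have h : (fun x : ℕ => (((Finset.range (x + 1)).filter fun p => p.Prime ∧ p ∈ S).card : ℝ) /
      Nat.primeCounting x) = fun x => natural.A x (chr S) := by
    funext x
    show (((Finset.range (x + 1)).filter fun ℓ => ℓ.Prime ∧ ℓ ∈ S).card : ℝ) /
      Nat.primeCounting x =
      (∑ p ∈ (Finset.range (x + 1)).filter Nat.Prime, chr S p) / Nat.primeCounting x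
    congr 1
    unfold chr
    rw [Finset.sum_ite, Finset.sum_const_zero, add_zero, Finset.sum_const, nsmul_eq_mul, mul_one,
      Finset.filter_filter]
  unfold HasNaturalDensity
  rw [h]
  rfl

/-- Chebotarev's theorem holds for the natural density. -/
theorem cheb_natural : natural.Cheb := by
  intro G _ _ ψ hs hl C hC
  rw [← hasNaturalDensity_iff]
  exact chebotarev_nat ψ hs hl C hC

lemma hasDirichletDensity_iff_dens {S : Set ℕ} {δ : ℝ} :
    HasDirichletDensity S δ ↔ dirichlet.Dens S δ := hasDirichletDensity_iff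

variable {W : WeierstrassCurve ℤ}

/-- The mod `p` representation of `W` is surjective for all primes `p > B`. -/
def Bound (W : WeierstrassCurve ℤ) (B : ℕ) : Prop :=
  ∀ (hΔ : W.Δ ≠ 0) (p : ℕ) [Fact p.Prime], B < p → Function.Surjective (repP p hΔ)

/-- For a semistable curve one may take `B = 2 ℓ + 1`, `ℓ` any prime of good reduction. -/
theorem bound_of_good (hW : W.IsSemistableModel) {ℓ : ℕ} (hℓ : ℓ.Prime)
    (hgood : W.IsGoodPrimeFor ℓ) : Bound W (2 * ℓ + 1) := fun hΔ _ _ hp =>
  repP_surjective_of_lt hΔ hW hℓ hgood hp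

theorem exists_bound (hΔ : W.Δ ≠ 0) (hW : W.IsSemistableModel) : ∃ B, Bound W B := by
  obtain ⟨B, hB⟩ := exists_bound_surjective hΔ hW
  exact ⟨B, fun _ p _ hp => hB p hp⟩

/-! ### Curves with large image -/

section Large

variable (hΔ : W.Δ ≠ 0) {B : ℕ} (hB : Bound W B)

include hΔ hB

/-- The primes `ℓ` with `a_ℓ = t` have natural density zero. -/
theorem density_apOfModel_eq_of_bound (t : ℤ) : HasNaturalDensity {ℓ | W.apOfModel ℓ = t} 0 :=
  hasNaturalDensity_iff.mpr (dens_apOfModel_eq cheb_natural hΔ (fun p _ hp => hB hΔ p hp) t)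

/-- The supersingular primes have natural density zero. -/
theorem density_supersingular_of_bound :
    HasNaturalDensity {ℓ | (ℓ : ℤ) ∣ W.apOfModel ℓ} 0 :=
  hasNaturalDensity_iff.mpr (dens_supersingular cheb_natural hΔ fun p _ hp => hB hΔ p hp)

/-- Almost all `#W(𝔽_ℓ)` have more than `k` different prime factors. -/
theorem density_card_primeFactors_of_bound (k : ℕ) :
    HasNaturalDensity {ℓ | (W.reductionMod ℓ).card.primeFactors.card ≤ k} 0 :=
  hasNaturalDensity_iff.mpr
    (dens_card_primeFactors cheb_natural hΔ (fun p _ hp => hB hΔ p hp) k)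

/-- Almost all `a_ℓ` have more than `k` different prime factors. -/
theorem density_ap_primeFactors_of_bound (k : ℕ) :
    HasNaturalDensity {ℓ | (W.apOfModel ℓ).natAbs.primeFactors.card ≤ k} 0 :=
  hasNaturalDensity_iff.mpr
    (dens_ap_primeFactors cheb_natural hΔ (fun p _ hp => hB hΔ p hp) k)

end Large

/-- **Independence of the mod `q i` representations**, natural density: `q i ≥ 5` finitely many
different primes with surjective representation. -/
theorem density_joint (hΔ : W.Δ ≠ 0) {ι : Type} [Fintype ι] {q : ι → ℕ}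
    [∀ i, Fact (q i).Prime] (hq : Function.Injective q) (h5 : ∀ i, 5 ≤ q i)
    (hs : ∀ i, Function.Surjective (repP (q i) hΔ)) (P : ∀ i, ZMod (q i) → ZMod (q i) → Prop) :
    HasNaturalDensity
      {ℓ | W.IsGoodPrimeFor ℓ ∧ ∀ i, P i (W.apOfModel ℓ : ZMod (q i)) (ℓ : ZMod (q i))}
      (∏ i, ((Nat.card {g : GL (Fin 2) (ZMod (q i)) | P i
        (g : Matrix (Fin 2) (Fin 2) (ZMod (q i))).trace
        (g : Matrix (Fin 2) (Fin 2) (ZMod (q i))).det} : ℝ) /
          Nat.card (GL (Fin 2) (ZMod (q i))))) :=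
  hasNaturalDensity_iff.mpr (dens_joint hΔ cheb_natural hq h5 hs P)

/-- **The density of the primes `ℓ` for which `#W(𝔽_ℓ)` is divisible by no prime `p ∈ S`** is
`∏_{p ∈ S} (1 - (p² - 2) / ((p - 1)² (p + 1)))`, `S` a finite set of primes `p ≥ 5` with
surjective mod `p` representation. -/
theorem density_coprime_card (hΔ : W.Δ ≠ 0) (S : Finset ℕ) (hS : ∀ p ∈ S, p.Prime ∧ 5 ≤ p)
    (hs : ∀ p ∈ S, ∀ [Fact p.Prime], Function.Surjective (repP p hΔ)) : HasNaturalDensity
    {ℓ | W.IsGoodPrimeFor ℓ ∧ ∀ p ∈ S, ¬ p ∣ (W.reductionMod ℓ).card}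
    (∏ p ∈ S, (1 - ((p : ℝ) ^ 2 - 2) / ((p - 1) ^ 2 * (p + 1)))) :=
  hasNaturalDensity_iff.mpr (dens_coprime_card cheb_natural hΔ S hS hs)

/-! ### Semistable curves -/

section Semistable

variable (hΔ : W.Δ ≠ 0) (hW : W.IsSemistableModel)

include hΔ hW

/-- **For every integer `t` the primes `ℓ` with `a_ℓ = t` have natural density zero**
(Serre, semistable case). -/
theorem density_apOfModel_eq (t : ℤ) : HasNaturalDensity {ℓ | W.apOfModel ℓ = t} 0 := by
  obtain ⟨B, hB⟩ := exists_bound hΔ hW
  exact density_apOfModel_eq_of_bound hΔ hB t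

/-- **The supersingular primes have natural density zero** (Serre, semistable case). -/
theorem density_supersingular : HasNaturalDensity {ℓ | (ℓ : ℤ) ∣ W.apOfModel ℓ} 0 := by
  obtain ⟨B, hB⟩ := exists_bound hΔ hW
  exact density_supersingular_of_bound hΔ hB

/-- **The ordinary primes have natural density one.** -/
theorem density_ordinary :
    HasNaturalDensity {ℓ | W.IsGoodPrimeFor ℓ ∧ ¬ (ℓ : ℤ) ∣ W.apOfModel ℓ} 1 := by
  have h := (density_supersingular hΔ hW).compl
  rw [sub_zero] at h
  refine h.congr_of_finset W.Δ.natAbs.primeFactors fun ℓ hℓ hℓΔ => ?_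
  have hgood : W.IsGoodPrimeFor ℓ := fun h => hℓΔ (Nat.mem_primeFactors.mpr
    ⟨hℓ, Int.natCast_dvd.mp h, Int.natAbs_ne_zero.mpr hΔ⟩)
  exact ⟨fun h => ⟨hgood, h⟩, fun h => h.2⟩

/-- **Almost all `#W(𝔽_ℓ)` have more than `k` different prime factors.** -/
theorem density_card_primeFactors (k : ℕ) :
    HasNaturalDensity {ℓ | (W.reductionMod ℓ).card.primeFactors.card ≤ k} 0 := by
  obtain ⟨B, hB⟩ := exists_bound hΔ hW
  exact density_card_primeFactors_of_bound hΔ hB k

/-- **Almost all `a_ℓ` have more than `k` different prime factors.** -/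
theorem density_ap_primeFactors (k : ℕ) :
    HasNaturalDensity {ℓ | (W.apOfModel ℓ).natAbs.primeFactors.card ≤ k} 0 := by
  obtain ⟨B, hB⟩ := exists_bound hΔ hW
  exact density_ap_primeFactors_of_bound hΔ hB k

/-- **`#W(𝔽_ℓ)` is almost never a power of a prime.** -/
theorem density_card_isPrimePow :
    HasNaturalDensity {ℓ | IsPrimePow (W.reductionMod ℓ).card} 0 :=
  (density_card_primeFactors hΔ hW 1).zero_mono fun _ h =>
    (isPrimePow_iff_card_primeFactors_eq_one.mp h).le

/-- **`#W(𝔽_ℓ)` is almost never a prime number.** -/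
theorem density_card_prime : HasNaturalDensity {ℓ | (W.reductionMod ℓ).card.Prime} 0 :=
  (density_card_isPrimePow hΔ hW).zero_mono fun _ (h : Nat.Prime _) => h.isPrimePow

/-- The Dirichlet density of the set of primes `ℓ` with `a_ℓ = t` is zero, too. -/
theorem dirichletDensity_apOfModel_eq (t : ℤ) :
    HasDirichletDensity {ℓ | W.apOfModel ℓ = t} 0 := by
  obtain ⟨B, hB⟩ := exists_bound hΔ hW
  exact hasDirichletDensity_iff_dens.mpr
    (dens_apOfModel_eq cheb_dirichlet hΔ (fun p _ hp => hB hΔ p hp) t)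

end Semistable

end Fermat.Agent.Cor.AlmostAll
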